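/-
Points, domains of definition and constants on a proper curve with Dedekind affine rings.
-/
import Fermat.Agent.Jacobian.Core.Targets
import Fermat.Agent.AbVar.GrowthCentre

set_option autoImplicit false

universe u

open CategoryTheory AlgebraicGeometry TopologicalSpace Fermat.Agent.AbVar

noncomputable section

namespace Fermat.Agent.Jacobian.Model

variable {C : Scheme.{u}} [IsIntegral C]

variable (C) in
/-- The affine rings are Dedekind domains and not fields. -/
def DedekindCharts : Prop :=
  ∀ (U : C.Opens), IsAffineOpen U → (U : Set C).Nonempty →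
    IsDedekindDomain Γ(C, U) ∧ ¬ IsField Γ(C, U)

omit [IsIntegral C] in
theorem exists_affine_mem (q : C) : ∃ W : C.Opens, IsAffineOpen W ∧ q ∈ W := by
  obtain ⟨W, hW, hq, -⟩ :=
    exists_isAffineOpen_mem_and_subset (U := ⊤) (x := q) trivial
  exact ⟨W, hW, hq⟩

theorem generic_mem (V : C.Opens) (hV : (V : Set C).Nonempty) : genericPoint C ∈ V :=
  ((genericPoint_spec C).mem_open_set_iff V.isOpen).mpr (by simpa using hV)

theorem primeIdealOf_ne_bot {W : C.Opens} (hW : IsAffineOpen W) {q : C} (hq : q ∈ W)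
    (hne : q ≠ genericPoint C) : (hW.primeIdealOf ⟨q, hq⟩).asIdeal ≠ ⊥ := by
  have : Nonempty W := ⟨⟨q, hq⟩⟩
  intro h
  have h1 : hW.primeIdealOf ⟨q, hq⟩ = genericPoint (Spec Γ(C, W)) := by
    rw [genericPoint_eq_bot_of_affine]
    exact PrimeSpectrum.ext h
  rw [← hW.primeIdealOf_genericPoint] at h1
  have h2 := congrArg hW.fromSpec h1
  rw [hW.fromSpec_primeIdealOf, hW.fromSpec_primeIdealOf] at h2
  exact hne h2

/-- Of a rational function and its inverse, one is regular at any given point. -/
theorem mem_Reg_or_inv (hb : DedekindCharts C) (q : C) (a : C.functionField) :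
    a ∈ Reg q ∨ a⁻¹ ∈ Reg q := by
  rcases eq_or_ne q (genericPoint C) with rfl | hq
  · exact .inl (mem_Reg_genericPoint a)
  obtain ⟨W, hW, hqW⟩ := exists_affine_mem q
  have := (hb W hW ⟨q, hqW⟩).1
  let alg : Algebra Γ(C, W) (C.presheaf.stalk q) :=
    TopCat.Presheaf.algebra_section_stalk C.presheaf (⟨q, hqW⟩ : W)
  have : IsLocalization.AtPrime (C.presheaf.stalk q) (hW.primeIdealOf ⟨q, hqW⟩).asIdeal :=
    hW.isLocalization_stalk ⟨q, hqW⟩
  have := IsLocalization.AtPrime.isDiscreteValuationRing_of_dedekind_domain Γ(C, W)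
    (primeIdealOf_ne_bot hW hqW hq) (C.presheaf.stalk q)
  obtain ⟨b, hb'⟩ | ⟨b, hb'⟩ :=
    ValuationRing.isInteger_or_isInteger (C.presheaf.stalk q) a
  · exact .inl ⟨b, hb'⟩
  · exact .inr ⟨b, hb'⟩

theorem isClosed_singleton (hb : DedekindCharts C) {q : C} (hq : q ≠ genericPoint C) :
    IsClosed ({q} : Set C) := by
  rw [← closure_subset_iff_isClosed]
  intro z hz
  obtain ⟨W, hW, hzW⟩ := exists_affine_mem z
  have hqW : q ∈ W := (specializes_iff_mem_closure.mpr hz).mem_open W.isOpen hzW
  have := (hb W hW ⟨z, hzW⟩).1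
  have hmax := Ring.DimensionLEOne.maximalOfPrime (primeIdealOf_ne_bot hW hqW hq)
    (hW.primeIdealOf ⟨q, hqW⟩).isPrime
  have hsp : hW.fromSpec (hW.primeIdealOf ⟨q, hqW⟩) ⤳ hW.fromSpec (hW.primeIdealOf ⟨z, hzW⟩) := by
    rw [hW.fromSpec_primeIdealOf, hW.fromSpec_primeIdealOf]
    exact specializes_iff_mem_closure.mpr hz
  have hsp' := hW.fromSpec.isOpenEmbedding.isEmbedding.toIsInducing.specializes_iff.mp hsp
  have hcl := (PrimeSpectrum.isClosed_singleton_iff_isMaximal _).mpr hmax
  have heq : hW.primeIdealOf ⟨z, hzW⟩ = hW.primeIdealOf ⟨q, hqW⟩ :=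
    hsp'.mem_closed hcl rfl
  have h2 := congrArg hW.fromSpec heq
  rwa [hW.fromSpec_primeIdealOf, hW.fromSpec_primeIdealOf] at h2

theorem finite_closed (hb : DedekindCharts C) [IsNoetherian C] {Z : Set C} (hZ : IsClosed Z)
    (h : genericPoint C ∉ Z) : Z.Finite := by
  obtain ⟨S, hS, hSeq⟩ := NoetherianSpace.exists_finset_irreducible (⟨Z, hZ⟩ : Closeds C)
  have hcoe : Z = ⋃ t ∈ S, (t : Set C) := by
    have := congrArg (fun t : Closeds C => (t : Set C)) hSeq
    simpa [Closeds.coe_finset_sup, Finset.sup_set_eq_biUnion] using this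
  rw [hcoe]
  refine S.finite_toSet.biUnion fun t ht => ?_
  have hirr := hS ⟨t, ht⟩
  have hgen := hirr.isGenericPoint_genericPoint t.isClosed
  have hne : hirr.genericPoint ≠ genericPoint C := fun e => h (by
    rw [hcoe, ← e]
    exact Set.mem_biUnion ht hgen.mem)
  have : (t : Set C) ⊆ {hirr.genericPoint} := fun y hy =>
    (isClosed_singleton hb hne).closure_eq.subset (hgen.specializes hy).mem_closure
  exact (Set.finite_singleton _).subset this

/-- The domain of definition of a rational function. -/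
def dom (a : C.functionField) : C.Opens where
  carrier := {q | a ∈ Reg q}
  is_open' := isOpen_iff_forall_mem_open.mpr fun q hq => by
    obtain ⟨U, hqU, hU⟩ := exists_open_of_mem_Reg hq
    exact ⟨U, fun y hy => hU y hy, U.isOpen, hqU⟩

theorem mem_dom {a : C.functionField} {q : C} : q ∈ dom a ↔ a ∈ Reg q :=
  Iff.rfl

instance nonempty_dom (a : C.functionField) : Nonempty (dom a : C.Opens) :=
  ⟨⟨genericPoint C, mem_Reg_genericPoint a⟩⟩

/-- A rational function as a section over its domain. -/
def domSec (a : C.functionField) : Γ(C, dom a) :=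
  (exists_section_of_forall_mem_Reg (dom a) a fun _ h => h).choose

@[simp]
theorem germ_domSec (a : C.functionField) : C.germToFunctionField (dom a) (domSec a) = a :=
  (exists_section_of_forall_mem_Reg (dom a) a fun _ h => h).choose_spec

theorem mem_basicOpen_iff {U : C.Opens} [Nonempty U] (s : Γ(C, U))
    (hs : C.germToFunctionField U s ≠ 0) (q : C) :
    q ∈ C.basicOpen s ↔ q ∈ U ∧ (C.germToFunctionField U s)⁻¹ ∈ Reg q := by
  constructor
  · intro hq
    have hqU : q ∈ U := C.basicOpen_le s hq
    obtain ⟨v, hv⟩ := (C.mem_basicOpen s q hqU).mp hq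
    refine ⟨hqU, (v⁻¹ : (C.presheaf.stalk q)ˣ).val, ?_⟩
    rw [map_units_inv, hv, Scheme.algebraMap_germ_eq_germToFunctionField]
  · rintro ⟨hqU, b, hb⟩
    refine (C.mem_basicOpen s q hqU).mpr (IsUnit.of_mul_eq_one b ?_)
    refine algebraMap_stalk_injective q ?_
    rw [map_mul, map_one, hb, Scheme.algebraMap_germ_eq_germToFunctionField]
    exact mul_inv_cancel₀ hs

section field

variable {k : Type u} [Field k] (c : C ⟶ Spec (CommRingCat.of k))

/-- A rational function which is regular everywhere is constant. -/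
theorem exists_const [IsAlgClosed k] [UniversallyClosed c] {a : C.functionField}
    (ha : ∀ q : C, a ∈ Reg q) : ∃ e : k, baseMap c e = a := by
  let _ : C.Over (Spec (CommRingCat.of k)) := ⟨c⟩
  have : UniversallyClosed (C ↘ Spec (CommRingCat.of k)) := ‹UniversallyClosed c›
  have hint : IsIntegral k a := isIntegral_of_forall_valuationSubring fun V hV => by
    obtain ⟨q, hq⟩ := exists_centre V hV
    exact hq (ha q)
  exact minpoly.mem_range_of_degree_eq_one k a
    (IsAlgClosed.degree_eq_one_of_irreducible k (minpoly.irreducible hint))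

/-- A nonconstant rational function is transcendental. -/
theorem eval₂_ne_zero [IsAlgClosed k] {a : C.functionField}
    (ha : ∀ e : k, baseMap c e ≠ a) {P : Polynomial k} (hP : P ≠ 0) :
    P.eval₂ (baseMap c) a ≠ 0 := by
  intro h
  rw [← Polynomial.eval_map] at h
  have hsplit := (IsAlgClosed.splits P).map (baseMap c)
  have hmem : a ∈ (P.map (baseMap c)).roots :=
    Polynomial.mem_roots'.mpr ⟨(Polynomial.map_ne_zero_iff (baseMap c).injective).mpr hP, h⟩
  rw [(IsAlgClosed.splits P).roots_map] at hmem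
  obtain ⟨e, -, he⟩ := Multiset.mem_map.mp hmem
  exact ha e he

end field

end Fermat.Agent.Jacobian.Model
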