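/-
The two affine charts attached to a nonconstant rational function on a proper curve.
-/
import Fermat.Agent.Jacobian.Model.Points

set_option autoImplicit false
set_option linter.unusedVariables false

universe u

open CategoryTheory AlgebraicGeometry TopologicalSpace Fermat.Agent.AbVar Polynomial

noncomputable section

namespace Fermat.Agent.Jacobian.Model

variable {k : Type u} [Field k] {C : Scheme.{u}} [IsIntegral C]
variable (c : C ⟶ Spec (CommRingCat.of k))

/-- The constants, as functions on an open set. -/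
def baseK (V : C.Opens) : k →+* Γ(C, V) :=
  (baseHom c V).comp (Scheme.ΓSpecIso (CommRingCat.of k)).inv.hom

theorem germ_baseK (V : C.Opens) [Nonempty V] (e : k) :
    C.germToFunctionField V (baseK c V e) = baseMap c e :=
  C.presheaf.germ_res_apply _ _ _ _

theorem germ_res {U V : C.Opens} [Nonempty U] [Nonempty V] (h : V ≤ U) (s : Γ(C, U)) :
    C.germToFunctionField V (res h s) = C.germToFunctionField U s :=
  C.presheaf.germ_res_apply _ _ _ _

/-- The ring map sending the variable to a rational function. -/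
def coord (a : C.functionField) : k[X] →+* Γ(C, dom a) :=
  eval₂RingHom (baseK c (dom a)) (domSec a)

theorem germ_coord (a : C.functionField) (P : k[X]) :
    C.germToFunctionField (dom a) (coord c a P) = P.eval₂ (baseMap c) a := by
  have : ((C.germToFunctionField (dom a)).hom.comp (coord c a)) = eval₂RingHom (baseMap c) a := by
    refine ringHom_ext (fun e => ?_) ?_
    · simp [coord, germ_baseK]
    · simp [coord]
  exact RingHom.congr_fun this P

theorem coord_injective [IsAlgClosed k] (a : C.functionField)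
    (ha : ∀ e : k, baseMap c e ≠ a) : Function.Injective (coord c a) := by
  rw [injective_iff_map_eq_zero]
  intro P h
  by_contra hP
  exact eval₂_ne_zero c ha hP (by rw [← germ_coord, h, map_zero])

/-- The map to the affine line. -/
def toLine (a : C.functionField) : (dom a).toScheme ⟶ Spec (CommRingCat.of k[X]) :=
  (dom a).toScheme.toSpecΓ ≫ Spec.map (CommRingCat.ofHom (coord c a) ≫ (dom a).topIso.inv)

theorem appTop_toLine (a : C.functionField) (P : k[X]) :
    (toLine c a).appTop ((Scheme.ΓSpecIso (CommRingCat.of k[X])).inv P) =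
      (dom a).topIso.inv (coord c a P) := by
  have h : (Scheme.ΓSpecIso (CommRingCat.of k[X])).inv ≫ (toLine c a).appTop =
      CommRingCat.ofHom (coord c a) ≫ (dom a).topIso.inv := by
    rw [toLine, Scheme.Hom.comp_appTop, Scheme.toSpecΓ_appTop,
      ← Scheme.ΓSpecIso_inv_naturality_assoc, Iso.inv_hom_id, Category.comp_id]
  exact ConcreteCategory.congr_hom h P

omit [IsIntegral C] in
theorem topIso_inv_baseK (V : C.Opens) (e : k) :
    V.topIso.inv (baseK c V e) =
      (V.ι ≫ c).appTop ((Scheme.ΓSpecIso (CommRingCat.of k)).inv e) := by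
  have h : c.appLE ⊤ V (fun _ _ => trivial) ≫ V.topIso.inv = (V.ι ≫ c).appTop := by
    simp only [Scheme.Hom.appLE, Scheme.Opens.topIso_inv, Scheme.Hom.comp_appTop,
      Scheme.Opens.ι_appTop]
    exact (Category.assoc _ _ _).trans
      (congrArg (c.app ⊤ ≫ ·) (C.presheaf.map_comp _ _).symm)
  exact ConcreteCategory.congr_hom h _

theorem toLine_comp (a : C.functionField) :
    toLine c a ≫ Spec.map (CommRingCat.ofHom (Polynomial.C : k →+* k[X])) = (dom a).ι ≫ c := by
  refine ext_of_isAffine ?_
  rw [← cancel_epi (Scheme.ΓSpecIso (CommRingCat.of k)).inv]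
  ext e
  have h1 : (Spec.map (CommRingCat.ofHom (Polynomial.C : k →+* k[X]))).appTop
      ((Scheme.ΓSpecIso (CommRingCat.of k)).inv e) =
      (Scheme.ΓSpecIso (CommRingCat.of k[X])).inv (Polynomial.C e) :=
    (ConcreteCategory.congr_hom
      (Scheme.ΓSpecIso_inv_naturality (CommRingCat.ofHom (Polynomial.C : k →+* k[X]))) e).symm
  refine Eq.trans ?_ (topIso_inv_baseK c (dom a) e)
  refine ((congrArg (toLine c a).appTop h1).trans (appTop_toLine c a _)).trans ?_
  simp [coord]

theorem appTop_appLE {T T' X : Scheme.{u}} (j : T' ⟶ T) (l : T ⟶ X) (U : X.Opens)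
    (h : ⊤ ≤ l ⁻¹ᵁ U) (h' : ⊤ ≤ (j ≫ l) ⁻¹ᵁ U) (s : Γ(X, U)) :
    j.appTop (l.appLE U ⊤ h s) = (j ≫ l).appLE U ⊤ h' s := by
  rw [← Scheme.Hom.appLE_comp_appLE j l U ⊤ ⊤ h (fun _ _ => trivial)]
  rw [CommRingCat.comp_apply, show j.appTop = j.appLE ⊤ ⊤ (fun _ _ => trivial) from
    j.app_eq_appLE]

theorem topIso_inv_eq_appLE {X : Scheme.{u}} (U : X.Opens)
    (hU : (⊤ : U.toScheme.Opens) ≤ U.ι ⁻¹ᵁ U) : U.topIso.inv = U.ι.appLE U ⊤ hU := by
  simp only [Scheme.Hom.appLE, Scheme.Opens.ι_app, Scheme.Opens.topIso_inv,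
    Scheme.Opens.toScheme_presheaf_map]
  exact (congrArg X.presheaf.map (Subsingleton.elim _ _)).trans (X.presheaf.map_comp _ _)

theorem appTop_topIso {T X : Scheme.{u}} (U : X.Opens) (m : T ⟶ U.toScheme)
    (h : ⊤ ≤ (m ≫ U.ι) ⁻¹ᵁ U) (s : Γ(X, U)) :
    m.appTop (U.topIso.inv s) = (m ≫ U.ι).appLE U ⊤ h s := by
  have hU : (⊤ : U.toScheme.Opens) ≤ U.ι ⁻¹ᵁ U := fun x _ => x.2
  rw [← appTop_appLE m U.ι U hU h s]
  refine congrArg m.appTop ?_
  rw [topIso_inv_eq_appLE U hU]

variable {a : C.functionField}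

theorem dom_inter (hb : DedekindCharts C) (ha : a ≠ 0) :
    dom a ⊓ dom a⁻¹ = C.basicOpen (domSec a) := by
  ext q
  simp only [Opens.coe_inf, Set.mem_inter_iff, SetLike.mem_coe]
  rw [mem_basicOpen_iff _ (by simpa using ha), germ_domSec]
  rfl

theorem res_domSec_mul (ha : a ≠ 0) :
    res (inf_le_left : dom a ⊓ dom a⁻¹ ≤ dom a) (domSec a) *
      res inf_le_right (domSec a⁻¹) = 1 := by
  have : Nonempty (dom a ⊓ dom a⁻¹ : C.Opens) :=
    ⟨⟨genericPoint C, mem_Reg_genericPoint a, mem_Reg_genericPoint a⁻¹⟩⟩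
  refine C.germToFunctionField_injective (dom a ⊓ dom a⁻¹) ?_
  rw [map_mul, germ_res, germ_res, germ_domSec, germ_domSec, map_one]
  exact mul_inv_cancel₀ ha

theorem existence_toLine (hb : DedekindCharts C) [IsProper c] (ha : a ≠ 0) :
    ValuativeCriterion.Existence (toLine c a) := by
  intro S
  have hex : ValuativeCriterion.Existence c := by
    have h : UniversallyClosed c := inferInstance
    rw [UniversallyClosed.eq_valuativeCriterion] at h
    exact h.1
  let j := Spec.map (CommRingCat.ofHom (algebraMap S.R S.K))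
  obtain ⟨l, hl₁, hl₂⟩ : ∃ l : Spec (CommRingCat.of S.R) ⟶ C, j ≫ l = S.i₁ ≫ (dom a).ι ∧
      l ≫ c = S.i₂ ≫ Spec.map (CommRingCat.ofHom (Polynomial.C : k →+* k[X])) := by
    obtain ⟨l, hl₁, hl₂⟩ := (hex
      { R := S.R
        K := S.K
        i₁ := S.i₁ ≫ (dom a).ι
        i₂ := S.i₂ ≫ Spec.map (CommRingCat.ofHom (Polynomial.C : k →+* k[X]))
        commSq := ⟨by rw [Category.assoc, ← toLine_comp, reassoc_of% S.commSq.w]⟩ }).exists_lift
    exact ⟨l, hl₁, hl₂⟩
  have hj : Function.Injective j.appTop := by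
    intro r r' h
    have key : ∀ r, (Scheme.ΓSpecIso (CommRingCat.of S.K)).hom (j.appTop r) =
        algebraMap S.R S.K ((Scheme.ΓSpecIso (CommRingCat.of S.R)).hom r) := fun r =>
      ConcreteCategory.congr_hom
        (Scheme.ΓSpecIso_naturality (CommRingCat.ofHom (algebraMap S.R S.K))) r
    have h2 := congrArg (Scheme.ΓSpecIso (CommRingCat.of S.K)).hom h
    rw [key, key] at h2
    exact (Scheme.ΓSpecIso (CommRingCat.of S.R)).commRingCatIsoToRingEquiv.injective
      (IsFractionRing.injective S.R S.K h2)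
  have hp : l (IsLocalRing.closedPoint S.R) ∈ dom a := by
    by_contra hp0
    have hp1 : l (IsLocalRing.closedPoint S.R) ∈ dom a⁻¹ :=
      (mem_Reg_or_inv hb _ a).resolve_left hp0
    have hl1 : ⊤ ≤ l ⁻¹ᵁ dom a⁻¹ := fun r _ =>
      ((IsLocalRing.specializes_closedPoint r).map l.continuous).mem_open (dom a⁻¹).isOpen hp1
    have hK : ⊤ ≤ (S.i₁ ≫ (dom a).ι) ⁻¹ᵁ dom a := fun r _ => (S.i₁ r).2
    have hK0 : ⊤ ≤ (j ≫ l) ⁻¹ᵁ dom a := hl₁ ▸ hK
    have hK1 : ⊤ ≤ (j ≫ l) ⁻¹ᵁ dom a⁻¹ := fun r _ => hl1 trivial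
    have hK01 : ⊤ ≤ (j ≫ l) ⁻¹ᵁ (dom a ⊓ dom a⁻¹) := fun r hr => ⟨hK0 hr, hK1 hr⟩
    set xR := S.i₂.appTop ((Scheme.ΓSpecIso (CommRingCat.of k[X])).inv X) with hxR
    set yR := l.appLE (dom a⁻¹) ⊤ hl1 (domSec a⁻¹) with hyR
    have e1 : j.appTop yR = (j ≫ l).appLE (dom a⁻¹) ⊤ hK1 (domSec a⁻¹) :=
      appTop_appLE j l _ hl1 hK1 _
    have e0 : j.appTop xR = (j ≫ l).appLE (dom a) ⊤ hK0 (domSec a) := by
      rw [hxR, ← CommRingCat.comp_apply, ← Scheme.Hom.comp_appTop,
        show j ≫ S.i₂ = S.i₁ ≫ toLine c a from S.commSq.w.symm, Scheme.Hom.comp_appTop,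
        CommRingCat.comp_apply, appTop_toLine]
      simp only [coord, coe_eval₂RingHom, eval₂_X]
      rw [appTop_topIso (dom a) S.i₁ hK]
      congr 3
      simp only [hl₁]
    have e : j.appTop (xR * yR) = j.appTop 1 := by
      rw [map_mul, map_one, e0, e1]
      have h := congrArg ((j ≫ l).appLE (dom a ⊓ dom a⁻¹) ⊤ hK01) (res_domSec_mul ha)
      rw [map_mul, map_one] at h
      simp only [res, ← CommRingCat.comp_apply, Scheme.Hom.map_appLE] at h
      exact h
    have hu : IsUnit yR := IsUnit.of_mul_eq_one xR (by rw [mul_comm]; exact hj e)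
    have hmem : IsLocalRing.closedPoint S.R ∈ l ⁻¹ᵁ C.basicOpen (domSec a⁻¹) := by
      have h2 := Scheme.basicOpen_of_isUnit _ hu
      rw [hyR, Scheme.basicOpen_appLE, top_inf_eq] at h2
      rw [h2]
      trivial
    have h3 := ((mem_basicOpen_iff _ (by simpa using ha) _).mp hmem).2
    rw [germ_domSec, inv_inv] at h3
    exact hp0 h3
  have hrange : Set.range l ⊆ Set.range (dom a).ι := by
    rintro _ ⟨r, rfl⟩
    rw [Scheme.Opens.range_ι]
    exact ((IsLocalRing.specializes_closedPoint r).map l.continuous).mem_open (dom a).isOpen hp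
  let l' := IsOpenImmersion.lift (dom a).ι l hrange
  have hfac : l' ≫ (dom a).ι = l := IsOpenImmersion.lift_fac _ _ _
  have h1 : j ≫ l' = S.i₁ := by rw [← cancel_mono (dom a).ι, Category.assoc, hfac, hl₁]
  refine ⟨⟨⟨l', h1, ?_⟩⟩⟩
  refine ext_of_isAffine ?_
  ext s
  refine hj ?_
  simp only [← CommRingCat.comp_apply, ← Scheme.Hom.comp_appTop]
  rw [show j ≫ l' ≫ toLine c a = j ≫ S.i₂ by rw [reassoc_of% h1]; exact S.commSq.w]

variable [IsAlgClosed k]

theorem finite_preimage_toLine (hb : DedekindCharts C) [IsNoetherian C]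
    [UniversallyClosed (toLine c a)] (ha : ∀ e : k, baseMap c e ≠ a)
    (z : Spec (CommRingCat.of k[X])) : (toLine c a ⁻¹' {z}).Finite := by
  let η : (dom a).toScheme := ⟨genericPoint C, mem_Reg_genericPoint a⟩
  have hη : (toLine c a η).asIdeal = ⊥ := by
    rw [eq_bot_iff]
    intro P hP
    by_contra hne
    have hP0 : P ≠ 0 := hne
    have h2 : η ∈ toLine c a ⁻¹ᵁ (Spec (CommRingCat.of k[X])).basicOpen
        ((Scheme.ΓSpecIso (CommRingCat.of k[X])).inv P) := by
      rw [Scheme.preimage_basicOpen_top, appTop_toLine]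
      have h : genericPoint C ∈ C.basicOpen (coord c a P) := by
        have hne' : C.germToFunctionField (dom a) (coord c a P) ≠ 0 := by
          rw [germ_coord]; exact eval₂_ne_zero c ha hP0
        exact (mem_basicOpen_iff _ hne' _).mpr ⟨η.2, mem_Reg_genericPoint _⟩
      have e : (dom a).ι ⁻¹ᵁ C.basicOpen (coord c a P) =
          (dom a).toScheme.basicOpen ((dom a).topIso.inv (coord c a P)) := by
        have hU : (⊤ : (dom a).toScheme.Opens) ≤ (dom a).ι ⁻¹ᵁ dom a := fun x _ => x.2
        rw [topIso_inv_eq_appLE (dom a) hU]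
        exact ((Scheme.basicOpen_appLE (dom a).ι ⊤ (dom a) hU _).trans (top_inf_eq _)).symm
      rw [← e]
      exact h
    have h3 := h2
    rw [Scheme.Hom.mem_preimage] at h3
    erw [basicOpen_eq_of_affine] at h3
    exact h3 hP
  by_cases hz : IsClosed ({z} : Set (Spec (CommRingCat.of k[X])))
  · obtain ⟨Z, hZ, hZeq⟩ := (Topology.IsInducing.isClosed_iff
      (dom a).ι.isOpenEmbedding.isEmbedding.toIsInducing).mp (hz.preimage (toLine c a).continuous)
    have hgen : genericPoint C ∉ Z := by
      intro h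
      have h2 : η ∈ toLine c a ⁻¹' {z} := hZeq ▸ h
      have h3 : toLine c a η = z := h2
      have hmax := (PrimeSpectrum.isClosed_singleton_iff_isMaximal _).mp hz
      rw [← h3, hη] at hmax
      exact Polynomial.not_isField k
        (Ring.isField_iff_maximal_bot.mpr hmax)
    have := (finite_closed hb hZ hgen).preimage (dom a).ι.isOpenEmbedding.injective.injOn
    rw [hZeq] at this
    exact this
  · refine (Set.finite_singleton η).subset fun q hq => ?_
    by_contra hne
    refine hz ?_
    have hne' : (dom a).ι q ≠ genericPoint C := fun h =>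
      hne (show q = η from Subtype.ext h)
    have hcl : IsClosed ({q} : Set (dom a).toScheme) := by
      have h5 := (isClosed_singleton hb hne').preimage (dom a).ι.continuous
      have h6 : (dom a).ι ⁻¹' {(dom a).ι q} = {q} := by
        ext r
        exact (dom a).ι.isOpenEmbedding.injective.eq_iff
      rwa [h6] at h5
    have := (toLine c a).isClosedMap _ hcl
    rwa [Set.image_singleton, show toLine c a q = z from hq] at this

variable [IsProper c]

theorem isFinite_toLine (hb : DedekindCharts C) [IsNoetherian C]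
    (ha : ∀ e : k, baseMap c e ≠ a) : IsFinite (toLine c a) := by
  have ha0 : a ≠ 0 := fun h => ha 0 (by rw [map_zero, h])
  have : IsSeparated (toLine c a) := by
    have : IsSeparated (toLine c a ≫
        Spec.map (CommRingCat.ofHom (Polynomial.C : k →+* k[X]))) := by
      rw [toLine_comp]; infer_instance
    exact IsSeparated.of_comp _ (Spec.map (CommRingCat.ofHom (Polynomial.C : k →+* k[X])))
  have : LocallyOfFiniteType (toLine c a) := by
    have : LocallyOfFiniteType (toLine c a ≫
        Spec.map (CommRingCat.ofHom (Polynomial.C : k →+* k[X]))) := by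
      rw [toLine_comp]; infer_instance
    exact locallyOfFiniteType_of_comp _ (Spec.map (CommRingCat.ofHom (Polynomial.C : k →+* k[X])))
  have : CompactSpace (dom a).toScheme :=
    isCompact_iff_compactSpace.mp (NoetherianSpace.isCompact ((dom a : C.Opens) : Set C))
  have : QuasiCompact (toLine c a) := by
    rw [quasiCompact_iff_compactSpace]
    infer_instance
  have : UniversallyClosed (toLine c a) :=
    UniversallyClosed.of_valuativeCriterion _ (existence_toLine c hb ha0)
  have : IsProper (toLine c a) := {}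
  have : LocallyQuasiFinite (toLine c a) :=
    locallyQuasiFinite_iff_finite_preimage_singleton.mpr (finite_preimage_toLine c hb ha)
  exact .of_isProper_of_locallyQuasiFinite _

theorem isAffineOpen_dom (hb : DedekindCharts C) [IsNoetherian C]
    (ha : ∀ e : k, baseMap c e ≠ a) : IsAffineOpen (dom a) := by
  have := isFinite_toLine c hb ha
  exact isAffine_of_isAffineHom (toLine c a)

theorem finite_coord (hb : DedekindCharts C) [IsNoetherian C]
    (ha : ∀ e : k, baseMap c e ≠ a) : (coord c a).Finite := by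
  have := isFinite_toLine c hb ha
  have h := (toLine c a).finite_appTop
  have e : coord c a = ((dom a).topIso.hom.hom).comp (((toLine c a).appTop.hom).comp
      (Scheme.ΓSpecIso (CommRingCat.of k[X])).inv.hom) := by
    refine RingHom.ext fun P => ?_
    refine Eq.trans ?_ (congrArg (dom a).topIso.hom (appTop_toLine c a P)).symm
    exact (Iso.inv_hom_id_apply (C := CommRingCat) (dom a).topIso _).symm
  rw [e]
  exact (RingHom.Finite.of_surjective _
      (dom a).topIso.commRingCatIsoToRingEquiv.surjective).comp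
    (h.comp (RingHom.Finite.of_surjective _
      (Scheme.ΓSpecIso (CommRingCat.of k[X])).commRingCatIsoToRingEquiv.symm.surjective))

/-- Functions on the chart are free and finite over the coordinate line. -/
theorem free_dom (hb : DedekindCharts C) [IsNoetherian C]
    (ha : ∀ e : k, baseMap c e ≠ a) :
    ∃ (n : ℕ) (b : Fin n → Γ(C, dom a)), Function.Bijective
      fun q : Fin n → Polynomial Γ(Spec (CommRingCat.of k), ⊤) =>
        ∑ i, (q i).eval₂ (baseHom c (dom a)) (domSec a) * b i := by
  let _ := (coord c a).toAlgebra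
  have : Module.Finite k[X] Γ(C, dom a) := finite_coord c hb ha
  have : Module.IsTorsionFree k[X] Γ(C, dom a) :=
    Module.isTorsionFree_iff_algebraMap_injective.mpr (coord_injective c a ha)
  have : Module.Free k[X] Γ(C, dom a) := Module.free_of_finite_type_torsion_free'
  let B := Module.finBasis k[X] Γ(C, dom a)
  let e : Polynomial Γ(Spec (CommRingCat.of k), ⊤) ≃+* k[X] :=
    Polynomial.mapEquiv (Scheme.ΓSpecIso (CommRingCat.of k)).commRingCatIsoToRingEquiv
  refine ⟨_, B, ?_⟩
  have key : ∀ q : Polynomial Γ(Spec (CommRingCat.of k), ⊤),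
      coord c a (e q) = q.eval₂ (baseHom c (dom a)) (domSec a) := by
    intro q
    simp only [e, coord, coe_eval₂RingHom, mapEquiv_apply, eval₂_map]
    congr 1
    refine RingHom.ext fun r => ?_
    exact congrArg (baseHom c (dom a))
      (Iso.hom_inv_id_apply (C := CommRingCat) (Scheme.ΓSpecIso (CommRingCat.of k)) r)
  have h := B.equivFun.symm.bijective.comp
    (Equiv.arrowCongr (Equiv.refl _) e.toEquiv).bijective
  convert h using 1
  funext q
  simp only [Function.comp_apply, Module.Basis.equivFun_symm_apply, Equiv.arrowCongr_apply,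
    Equiv.refl_symm, Equiv.coe_refl, id_eq]
  refine Finset.sum_congr rfl fun i _ => ?_
  rw [Algebra.smul_def]
  exact congrArg (· * B i) (key (q i)).symm

/-- The pair of charts of a nonconstant rational function. -/
def twoChart (hb : DedekindCharts C) [IsNoetherian C]
    (ha : ∀ e : k, baseMap c e ≠ a) : TwoChart c where
  U0 := dom a
  U1 := dom a⁻¹
  isAffine0 := isAffineOpen_dom c hb ha
  isAffine1 := isAffineOpen_dom c hb fun e h => ha e⁻¹ (by rw [map_inv₀, h, inv_inv])
  cover := eq_top_iff.mpr fun q _ => mem_Reg_or_inv hb q a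
  x := domSec a
  y := domSec a⁻¹
  inter0 := dom_inter hb fun h => ha 0 (by rw [map_zero, h])
  inter1 := by
    rw [← dom_inter hb (inv_ne_zero fun h => ha 0 (by rw [map_zero, h])), inv_inv, inf_comm]
  x_mul_y := res_domSec_mul fun h => ha 0 (by rw [map_zero, h])
  free0 := free_dom c hb ha
  free1 := free_dom c hb fun e h => ha e⁻¹ (by rw [map_inv₀, h, inv_inv])

end Fermat.Agent.Jacobian.Model
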