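/-
A rational function whose only pole is a given closed point of the curve.
-/
import Fermat.Agent.Jacobian.Model.Chart
import Fermat.Agent.AbVar.RegOn

set_option autoImplicit false
set_option linter.unusedVariables false

universe u

open CategoryTheory AlgebraicGeometry TopologicalSpace Fermat.Agent.AbVar Polynomial

noncomputable section

namespace Fermat.Agent.Jacobian.Model

variable {k : Type u} [Field k] [IsAlgClosed k] {C : Scheme.{u}} [IsIntegral C]
variable (c : C ⟶ Spec (CommRingCat.of k))

theorem exists_nonunit_at (hb : DedekindCharts C) {p : C} (hp : p ≠ genericPoint C) :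
    ∃ w : C.functionField, w ∈ Reg p ∧ w⁻¹ ∉ Reg p ∧ w ≠ 0 := by
  obtain ⟨W, hW, hpW⟩ := exists_affine_mem p
  have : Nonempty W := ⟨⟨p, hpW⟩⟩
  obtain ⟨r, hr, hr0⟩ := Submodule.ne_bot_iff _ |>.mp (primeIdealOf_ne_bot hW hpW hp)
  have hne : C.germToFunctionField W r ≠ 0 :=
    fun h => hr0 (C.germToFunctionField_injective W (by rw [h, map_zero]))
  refine ⟨_, germToFunctionField_mem_Reg hpW r, fun h => ?_, hne⟩
  have h2 : p ∈ C.basicOpen r := (mem_basicOpen_iff r hne p).mpr ⟨hpW, h⟩
  have h3 : hW.primeIdealOf ⟨p, hpW⟩ ∈ hW.fromSpec ⁻¹ᵁ C.basicOpen r := by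
    show hW.fromSpec (hW.primeIdealOf ⟨p, hpW⟩) ∈ C.basicOpen r
    rw [hW.fromSpec_primeIdealOf]
    exact h2
  rw [hW.fromSpec_preimage_basicOpen] at h3
  exact h3 hr

omit [IsAlgClosed k] in
theorem not_const_of_inv_notMem {p : C} {w : C.functionField} (h : w⁻¹ ∉ Reg p)
    (e : k) : baseMap c e ≠ w := fun he =>
  h (by rw [← he, ← map_inv₀]; exact baseMap_mem_Reg c _ p)

/-- A function on an affine neighbourhood with a single pole, at the given point. -/
theorem exists_pole (hb : DedekindCharts C) {W : C.Opens} (hW : IsAffineOpen W) {p : C}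
    (hpW : p ∈ W) (hp : p ≠ genericPoint C) :
    ∃ t : C.functionField, t ∉ Reg p ∧ ∀ q ∈ W, q ≠ p → t ∈ Reg q := by
  have : Nonempty W := ⟨⟨p, hpW⟩⟩
  have := (hb W hW ⟨p, hpW⟩).1
  have := functionField_isFractionRing_of_isAffineOpen C W hW
  set P := (hW.primeIdealOf ⟨p, hpW⟩).asIdeal with hP
  have hPb : P ≠ ⊥ := primeIdealOf_ne_bot hW hpW hp
  have hPm : P.IsMaximal :=
    Ring.DimensionLEOne.maximalOfPrime hPb (hW.primeIdealOf ⟨p, hpW⟩).isPrime
  obtain ⟨t, ht, ht1⟩ :=
    FractionalIdeal.exists_notMem_one_of_ne_bot (K := C.functionField) hPb hPm.ne_top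
  rw [FractionalIdeal.mem_inv_iff (FractionalIdeal.coeIdeal_ne_zero.mpr hPb)] at ht
  have hreg : ∀ q ∈ W, q ≠ p → t ∈ Reg q := by
    intro q hq hqp
    obtain ⟨s, hsP, hsQ⟩ : ∃ s ∈ P, s ∉ (hW.primeIdealOf ⟨q, hq⟩).asIdeal := by
      by_contra h
      push Not at h
      have h2 : hW.primeIdealOf ⟨p, hpW⟩ = hW.primeIdealOf ⟨q, hq⟩ := PrimeSpectrum.ext
        (hPm.eq_of_le (hW.primeIdealOf ⟨q, hq⟩).isPrime.ne_top h)
      have h3 := congrArg hW.fromSpec h2
      rw [hW.fromSpec_primeIdealOf, hW.fromSpec_primeIdealOf] at h3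
      exact hqp h3.symm
    have hs0 : algebraMap Γ(C, W) C.functionField s ≠ 0 := fun h =>
      hsQ (((IsFractionRing.injective Γ(C, W) C.functionField) (h.trans (map_zero _).symm)) ▸
        Ideal.zero_mem _)
    obtain ⟨r, hr⟩ := (FractionalIdeal.mem_one_iff _).mp
      (ht _ (FractionalIdeal.mem_coeIdeal_of_mem _ hsP))
    have hsb : q ∈ C.basicOpen s := by
      have h4 : hW.primeIdealOf ⟨q, hq⟩ ∈ hW.fromSpec ⁻¹ᵁ C.basicOpen s := by
        rw [hW.fromSpec_preimage_basicOpen]
        exact hsQ
      have h5 : hW.fromSpec (hW.primeIdealOf ⟨q, hq⟩) ∈ C.basicOpen s := h4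
      rwa [hW.fromSpec_primeIdealOf] at h5
    have hinv : (algebraMap Γ(C, W) C.functionField s)⁻¹ ∈ Reg q :=
      ((mem_basicOpen_iff s hs0 q).mp hsb).2
    have h6 := mul_mem (germToFunctionField_mem_Reg hq r) hinv
    have h7 : t = C.germToFunctionField W r * (algebraMap Γ(C, W) C.functionField s)⁻¹ := by
      rw [eq_mul_inv_iff_mul_eq₀ hs0]
      exact hr.symm
    rwa [h7]
  refine ⟨t, fun h => ht1 ?_, hreg⟩
  have h8 : ∀ q ∈ W, t ∈ Reg q := fun q hq => by
    rcases eq_or_ne q p with rfl | hqp
    · exact h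
    · exact hreg q hq hqp
  obtain ⟨r, hr⟩ := exists_section_of_forall_mem_Reg W t h8
  exact (FractionalIdeal.mem_one_iff _).mpr ⟨r, hr⟩

/-- A nonconstant polynomial in a function with a pole has a pole. -/
theorem eval₂_notMem_Reg (hb : DedekindCharts C) {p : C} {t : C.functionField} (ht : t ∉ Reg p)
    {Q : k[X]} (hQ : 0 < Q.natDegree) : Q.eval₂ (baseMap c) t ∉ Reg p := by
  let V : ValuationSubring C.functionField :=
    { Reg p with mem_or_inv_mem' := mem_Reg_or_inv hb p }
  have hmem : ∀ z, z ∈ V ↔ z ∈ Reg p := fun z => Iff.rfl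
  have hconst : ∀ e : k, e ≠ 0 → V.valuation (baseMap c e) = 1 := by
    intro e he
    refine le_antisymm ((V.valuation_le_one_iff _).mpr (baseMap_mem_Reg c e p)) ?_
    have h1 := (V.valuation_le_one_iff _).mpr (baseMap_mem_Reg c e⁻¹ p)
    rw [map_inv₀, map_inv₀, inv_le_one₀ ?_] at h1
    · exact h1
    · exact zero_lt_iff.mpr ((V.valuation.ne_zero_iff).mpr ((_root_.map_ne_zero _).mpr he))
  have hlin : ∀ e : k, 1 < V.valuation (t - baseMap c e) := by
    intro e
    rw [← not_le, V.valuation_le_one_iff, hmem]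
    exact fun h => ht (by simpa using add_mem h (baseMap_mem_Reg c e p))
  have hprod : ∀ s : Multiset k,
      (1 ≤ V.valuation (s.map fun e => t - baseMap c e).prod) ∧
        (s ≠ 0 → 1 < V.valuation (s.map fun e => t - baseMap c e).prod) := by
    intro s
    induction s using Multiset.induction_on with
    | empty => simp
    | cons e s ih =>
      have h := one_lt_mul_of_lt_of_le' (hlin e) ih.1
      rw [← map_mul] at h
      simp only [Multiset.map_cons, Multiset.prod_cons]
      exact ⟨h.le, fun _ => h⟩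
  intro h
  have hsplit := IsAlgClosed.splits Q
  have hroots : Q.roots ≠ 0 := fun h0 => by
    rw [hsplit.natDegree_eq_card_roots, h0] at hQ
    exact absurd hQ (by simp)
  have heq : Q.eval₂ (baseMap c) t =
      baseMap c Q.leadingCoeff * (Q.roots.map fun e => t - baseMap c e).prod := by
    conv_lhs => rw [hsplit.eq_prod_roots]
    rw [eval₂_mul, eval₂_C, eval₂_multiset_prod, Multiset.map_map]
    simp
  have h1 := (V.valuation_le_one_iff _).mpr h
  rw [heq, map_mul, hconst _ (leadingCoeff_ne_zero.mpr (fun h0 => by simp [h0] at hQ)),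
    one_mul] at h1
  exact not_lt.mpr h1 ((hprod Q.roots).2 hroots)

theorem exists_pow_mul_mem (hb : DedekindCharts C) [IsNoetherian C] [IsProper c]
    {w : C.functionField} (hw : ∀ e : k, baseMap c e ≠ w) {z : C.functionField}
    (hz : ∀ q ∈ dom w ⊓ dom w⁻¹, z ∈ Reg q) :
    ∃ m : ℕ, ∀ q ∈ dom w, w ^ m * z ∈ Reg q := by
  have hw0 : w ≠ 0 := fun h => hw 0 (by rw [map_zero, h])
  have hW := isAffineOpen_dom c hb hw
  have hne : Nonempty (C.basicOpen (domSec w) : C.Opens) := by
    rw [← dom_inter hb hw0]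
    exact ⟨⟨genericPoint C, mem_Reg_genericPoint w, mem_Reg_genericPoint _⟩⟩
  obtain ⟨s, hs⟩ := exists_section_of_forall_mem_Reg (C.basicOpen (domSec w)) z
    fun q hq => hz q (by rw [dom_inter hb hw0]; exact hq)
  have := hW.isLocalization_basicOpen (domSec w)
  obtain ⟨m, r, hr⟩ := IsLocalization.Away.surj (domSec w) s
  refine ⟨m, fun q hq => ?_⟩
  have h := congrArg (C.germToFunctionField (C.basicOpen (domSec w))) hr
  rw [map_mul, map_pow, hs] at h
  have key : ∀ v, C.germToFunctionField (C.basicOpen (domSec w))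
      (algebraMap Γ(C, dom w) Γ(C, C.basicOpen (domSec w)) v) =
        C.germToFunctionField (dom w) v := fun v => C.presheaf.germ_res_apply _ _ _ _
  rw [key, key, germ_domSec] at h
  rw [mul_comm, h]
  exact germToFunctionField_mem_Reg hq r

/-- There is a function whose only pole is the given point. -/
theorem exists_sole_pole (hb : DedekindCharts C) [IsNoetherian C] [IsProper c] {p : C}
    (hp : p ≠ genericPoint C) :
    ∃ f : C.functionField, (∀ e : k, baseMap c e ≠ f) ∧ ∀ q, f ∈ Reg q ↔ q ≠ p := by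
  obtain ⟨w, hwp, hwi, hw0⟩ := exists_nonunit_at hb hp
  have hwc := not_const_of_inv_notMem c hwi
  have hwc' : ∀ e : k, baseMap c e ≠ w⁻¹ := fun e h => hwc e⁻¹ (by rw [map_inv₀, h, inv_inv])
  obtain ⟨t, ht, htreg⟩ := exists_pole hb (isAffineOpen_dom c hb hwc) hwp hp
  let : C.Over (Spec (CommRingCat.of k)) := ⟨c⟩
  let A0 := Subalgebra.toSubmodule (RegOn k (dom w))
  let A1 := Subalgebra.toSubmodule (RegOn k (dom w⁻¹))
  -- generators of the functions on the chart over the coordinate line
  let _ := (coord c w).toAlgebra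
  have : Module.Finite k[X] Γ(C, dom w) := finite_coord c hb hwc
  obtain ⟨n, b, hbs⟩ := Module.Finite.exists_fin (R := k[X]) (M := Γ(C, dom w))
  have hbN : ∀ i : Fin n, ∃ m : ℕ, ∀ q ∈ dom w⁻¹,
      w⁻¹ ^ m * C.germToFunctionField (dom w) (b i) ∈ Reg q := by
    intro i
    refine exists_pow_mul_mem c hb hwc' fun q hq => ?_
    rw [inv_inv] at hq
    exact germToFunctionField_mem_Reg hq.2 _
  choose N hN using hbN
  let S : (Σ i : Fin n, Fin (N i)) → C.functionField := fun ij =>
    w⁻¹ ^ (ij.2 : ℕ) * C.germToFunctionField (dom w) (b ij.1)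
  let E := Submodule.span k (Set.range S)
  have hspan : ∀ z : C.functionField, (∀ q ∈ dom w ⊓ dom w⁻¹, z ∈ Reg q) →
      z ∈ A0 ⊔ A1 ⊔ E := by
    let G : Γ(C, dom w) →+* C.functionField := (C.germToFunctionField (dom w)).hom
    have hgen : ∀ r : Γ(C, dom w), ∀ m : ℕ, w⁻¹ ^ m * G r ∈ A0 ⊔ A1 ⊔ E := by
      intro r
      have hr : r ∈ Submodule.span k[X] (Set.range b) := hbs ▸ Submodule.mem_top
      induction hr using Submodule.span_induction with
      | zero => intro m; simp
      | add x y _ _ hx hy => intro m; rw [map_add, mul_add]; exact add_mem (hx m) (hy m)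
      | mem x hx =>
        obtain ⟨i, rfl⟩ := hx
        intro m
        by_cases hm : m < N i
        · exact Submodule.mem_sup_right (Submodule.subset_span ⟨⟨i, ⟨m, hm⟩⟩, rfl⟩)
        · refine Submodule.mem_sup_left (Submodule.mem_sup_right fun q hq => ?_)
          obtain ⟨d, rfl⟩ := Nat.exists_eq_add_of_le (not_lt.mp hm)
          rw [add_comm, pow_add, mul_assoc]
          exact mul_mem (pow_mem (show w⁻¹ ∈ Reg q from hq) d) (hN i q hq)
      | smul P x _ hx =>
        induction P using Polynomial.induction_on' with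
        | add P Q h1 h2 =>
          intro m
          rw [add_smul, map_add, mul_add]
          exact add_mem (h1 m) (h2 m)
        | monomial j e =>
          intro m
          have hG : G (monomial j e • x) = baseMap c e * (w ^ j * G x) := by
            rw [Algebra.smul_def]
            refine (map_mul G _ _).trans ?_
            refine (congrArg (· * G x) ((germ_coord c w _).trans ?_)).trans (mul_assoc _ _ _)
            simp
          rw [hG, mul_left_comm]
          have hsmul : ∀ v : C.functionField, baseMap c e * v = e • v := fun v =>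
            (Algebra.smul_def e v).symm
          rw [hsmul]
          refine Submodule.smul_mem _ e ?_
          rcases le_or_gt m j with hmj | hmj
          · obtain ⟨d, rfl⟩ := Nat.exists_eq_add_of_le hmj
            refine Submodule.mem_sup_left (Submodule.mem_sup_left fun q hq => ?_)
            rw [pow_add, ← mul_assoc, ← mul_assoc, inv_pow, inv_mul_cancel₀ (pow_ne_zero _ hw0),
              one_mul]
            exact mul_mem (pow_mem (show w ∈ Reg q from hq) d) (germToFunctionField_mem_Reg hq x)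
          · obtain ⟨d, rfl⟩ := Nat.exists_eq_add_of_le hmj.le
            rw [add_comm, pow_add, mul_assoc, ← mul_assoc (w⁻¹ ^ j), inv_pow w j,
              inv_mul_cancel₀ (pow_ne_zero _ hw0), one_mul]
            exact hx d
    intro z hz
    obtain ⟨m, hm⟩ := exists_pow_mul_mem c hb hwc hz
    obtain ⟨r, hr⟩ := exists_section_of_forall_mem_Reg (dom w) _ hm
    have h := hgen r m
    rwa [show G r = w ^ m * z from hr, ← mul_assoc, inv_pow,
      inv_mul_cancel₀ (pow_ne_zero _ hw0), one_mul] at h
  -- a dimension count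
  let d := Fintype.card (Σ i : Fin n, Fin (N i)) + 1
  let poly : (Fin d → k) →ₗ[k] C.functionField :=
    Fintype.linearCombination k fun i : Fin d => t ^ ((i : ℕ) + 1)
  have hE : Module.Finite k E := Module.Finite.span_of_finite k (Set.finite_range S)
  have hker : ∃ v : Fin d → k, v ≠ 0 ∧ poly v ∈ A0 ⊔ A1 := by
    let π := (A0 ⊔ A1).mkQ
    by_contra hcon
    push Not at hcon
    have hinj : Function.Injective (π ∘ₗ poly) := by
      rw [← LinearMap.ker_eq_bot, eq_bot_iff]
      intro v hv
      by_contra hv0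
      exact hcon v hv0 ((Submodule.Quotient.mk_eq_zero _).mp hv)
    have hle : LinearMap.range (π ∘ₗ poly) ≤ E.map π := by
      rintro _ ⟨v, rfl⟩
      have hv : poly v ∈ A0 ⊔ A1 ⊔ E := by
        refine hspan _ fun q hq => ?_
        show poly v ∈ Reg q
        simp only [poly, Fintype.linearCombination_apply]
        refine sum_mem fun i _ => ?_
        rw [Algebra.smul_def]
        refine mul_mem (algebraMap_mem_Reg _ q) (pow_mem (htreg q hq.1 ?_) _)
        rintro rfl
        exact hwi hq.2
      obtain ⟨u₁, hu₁, u₂, hu₂, huv⟩ := Submodule.mem_sup.mp hv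
      refine ⟨u₂, hu₂, ?_⟩
      rw [LinearMap.comp_apply, ← huv, map_add,
        show π u₁ = 0 from (Submodule.Quotient.mk_eq_zero _).mpr hu₁, zero_add]
    have h1 := LinearMap.finrank_range_of_inj hinj
    have h2 := (Submodule.finrank_mono hle).trans (Submodule.finrank_map_le π E)
    have h3 : Module.finrank k E ≤ Fintype.card (Σ i : Fin n, Fin (N i)) :=
      finrank_range_le_card S
    rw [h1, Module.finrank_fintype_fun_eq_card, Fintype.card_fin] at h2
    omega
  obtain ⟨v, hv0, hv⟩ := hker
  obtain ⟨a₀, ha₀, a₁, ha₁, hsum⟩ := Submodule.mem_sup.mp hv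
  let Q : k[X] := ∑ i : Fin d, monomial ((i : ℕ) + 1) (v i)
  have hQeval : Q.eval₂ (baseMap c) t = poly v := by
    simp [Q, poly, Fintype.linearCombination_apply, eval₂_finsetSum, Algebra.smul_def]
    rfl
  have hQdeg : 0 < Q.natDegree := by
    obtain ⟨i, hi⟩ := Function.ne_iff.mp hv0
    have hcoeff : Q.coeff ((i : ℕ) + 1) = v i := by
      simp only [Q, finsetSum_coeff, coeff_monomial]
      rw [Finset.sum_eq_single i]
      · simp
      · intro j _ hj
        rw [if_neg]
        intro h
        exact hj (Fin.ext (by omega))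
      · simp
    have := le_natDegree_of_ne_zero (p := Q) (n := (i : ℕ) + 1) (by rw [hcoeff]; exact hi)
    omega
  have hpole : a₁ ∉ Reg p := fun h => by
    refine eval₂_notMem_Reg c hb ht hQdeg ?_
    rw [hQeval, ← hsum]
    exact add_mem (ha₀ p hwp) h
  refine ⟨a₁, fun e he => hpole (he ▸ baseMap_mem_Reg c e p), fun q => ⟨?_, fun hqp => ?_⟩⟩
  · rintro h rfl
    exact hpole h
  rcases mem_Reg_or_inv hb q w with hq | hq
  · have hpv : poly v ∈ Reg q := by
      rw [← hQeval]
      simp only [Q, eval₂_finsetSum, eval₂_monomial]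
      exact sum_mem fun i _ =>
        mul_mem (baseMap_mem_Reg c _ q) (pow_mem (htreg q hq hqp) _)
    have : a₁ = poly v - a₀ := by rw [← hsum, add_sub_cancel_left]
    rw [this]
    exact sub_mem hpv (ha₀ q hq)
  · exact ha₁ q hq

end Fermat.Agent.Jacobian.Model
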