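/-
The model of the curve exists: two charts, the first being the complement of the marked point.
-/
import Fermat.Agent.Jacobian.Model.Pole

set_option autoImplicit false
set_option linter.unusedVariables false

universe u

open CategoryTheory CategoryTheory.Limits AlgebraicGeometry AlgebraicGeometry.RelPicard
  TopologicalSpace NeronModelInfra Fermat.Agent.AbVar

noncomputable section

namespace Fermat.Agent.Jacobian

variable {k : Type u} [Field k] {C : Scheme.{u}} {c : C ⟶ Spec (CommRingCat.of k)}
variable {ε : SchemeHomOver (𝟙 (Spec (CommRingCat.of k))) c}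

theorem range_section (ε : SchemeHomOver (𝟙 (Spec (CommRingCat.of k))) c) :
    Set.range ε.1 = {ε.1 (IsLocalRing.closedPoint k)} := by
  refine Set.eq_singleton_iff_unique_mem.mpr ⟨⟨_, rfl⟩, ?_⟩
  rintro _ ⟨r, rfl⟩
  exact congrArg ε.1 (Subsingleton.elim (α := PrimeSpectrum k) _ _)

theorem section_ne_genericPoint [IsIntegral C] [IsSeparated c] (hb : Model.DedekindCharts C)
    (ε : SchemeHomOver (𝟙 (Spec (CommRingCat.of k))) c) :
    ε.1 (IsLocalRing.closedPoint k) ≠ genericPoint C := by
  intro h
  have : IsClosedImmersion (ε.1 ≫ c) := by rw [ε.2]; infer_instance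
  have : IsClosedImmersion ε.1 := IsClosedImmersion.of_comp ε.1 c
  have hcl : IsClosed (Set.range ε.1) := ε.1.isClosedEmbedding.isClosed_range
  rw [range_section, h] at hcl
  have hall : ∀ q : C, q = genericPoint C := fun q =>
    (genericPoint_specializes_to q).mem_closed hcl rfl
  obtain ⟨W, hW, hq⟩ := Model.exists_affine_mem (genericPoint C)
  obtain ⟨hD, hF⟩ := hb W hW ⟨_, hq⟩
  obtain ⟨m, hm⟩ := Ideal.exists_maximal Γ(C, W)
  refine hF (Ring.isField_iff_maximal_bot.mpr ?_)
  have h2 : hW.fromSpec (⟨m, hm.isPrime⟩ : PrimeSpectrum Γ(C, W)) =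
      hW.fromSpec (⟨⊥, Ideal.isPrime_bot⟩ : PrimeSpectrum Γ(C, W)) :=
    (hall _).trans (hall _).symm
  have h3 := congrArg PrimeSpectrum.asIdeal (hW.fromSpec.isOpenEmbedding.injective h2)
  simp only at h3
  exact h3 ▸ hm

theorem nonempty_curveModel_of_dedekindCharts [IsAlgClosed k] [IsIntegral C] [IsProper c]
    (hb : Model.DedekindCharts C) (ε : SchemeHomOver (𝟙 (Spec (CommRingCat.of k))) c) :
    Nonempty (CurveModel c ε) := by
  have : IsLocallyNoetherian C := LocallyOfFiniteType.isLocallyNoetherian c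
  have : CompactSpace C := QuasiCompact.compactSpace_of_compactSpace c
  have : AlgebraicGeometry.IsNoetherian C := {}
  obtain ⟨f, hf, hpole⟩ := Model.exists_sole_pole c hb (section_ne_genericPoint hb ε)
  refine ⟨{ Model.twoChart c hb hf with mem_U0 := fun q => ?_ }⟩
  rw [range_section, Set.mem_singleton_iff]
  exact hpole q

/-- C2: the fixed charts exist. -/
theorem nonempty_curveModel [IsAlgClosed k] [IsIntegral C] [IsProper c]
    (hb : CurveBasicsProperty c) (ε : SchemeHomOver (𝟙 (Spec (CommRingCat.of k))) c) :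
    Nonempty (CurveModel c ε) :=
  nonempty_curveModel_of_dedekindCharts hb.2 ε

namespace CurveModel

variable (M : CurveModel c ε)

theorem nonempty_U0 [IsIntegral C] [IsSeparated c] (hb : CurveBasicsProperty c) :
    (M.U0 : Set C).Nonempty :=
  ⟨genericPoint C, (M.mem_U0 _).mpr (by
    rw [range_section, Set.mem_singleton_iff]
    exact (section_ne_genericPoint hb.2 ε).symm)⟩

theorem nonempty_U1 [IsIntegral C] : (M.U1 : Set C).Nonempty := by
  refine ⟨ε.1 (IsLocalRing.closedPoint k), ?_⟩
  have h : ε.1 (IsLocalRing.closedPoint k) ∈ M.U0 ⊔ M.U1 := M.cover ▸ trivial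
  exact (Opens.mem_sup.mp h).resolve_left fun h0 => (M.mem_U0 _).mp h0 ⟨_, rfl⟩

theorem finiteType_U0 [LocallyOfFiniteType c] : (baseHom c M.U0).FiniteType :=
  c.finiteType_appLE (isAffineOpen_top _) M.isAffine0 _

theorem isAffine_V0 {T : Scheme.{u}} [IsAffine T] (t : T ⟶ Spec (CommRingCat.of k)) :
    IsAffineOpen (M.V0 t) :=
  have : IsAffineHom (pullback.fst c t) := MorphismProperty.IsStableUnderBaseChange.of_isPullback (P := @IsAffineHom)
    (IsPullback.of_hasPullback c t).flip inferInstance
  M.isAffine0.preimage (pullback.fst c t)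

theorem isAffine_V1 {T : Scheme.{u}} [IsAffine T] (t : T ⟶ Spec (CommRingCat.of k)) :
    IsAffineOpen (M.V1 t) :=
  have : IsAffineHom (pullback.fst c t) := MorphismProperty.IsStableUnderBaseChange.of_isPullback (P := @IsAffineHom)
    (IsPullback.of_hasPullback c t).flip inferInstance
  M.isAffine1.preimage (pullback.fst c t)

theorem V0_sup_V1 {T : Scheme.{u}} (t : T ⟶ Spec (CommRingCat.of k)) :
    M.V0 t ⊔ M.V1 t = ⊤ := by
  show (pullback.fst c t ⁻¹ᵁ M.U0) ⊔ (pullback.fst c t ⁻¹ᵁ M.U1) = ⊤
  rw [← Scheme.Hom.preimage_sup, M.cover, Scheme.Hom.preimage_top]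

end CurveModel

end Fermat.Agent.Jacobian
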